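import Fermat.Agent.S41.Spec.New

/-!
# S41 / block NEW, leaf NEW-3b (helper576): the involution `ι` commutes with the Hecke transfers

    theorem newInvolutionHecke : Spec.NewInvolutionHeckeStatement

i.e. `heckeTransfer hl (charInvolution M ℂ ℂ φ) = charInvolution M ℂ ℂ (heckeTransfer hl φ)`
(proved for every coefficient group, `heckeTransfer_charInvolution`).

Proof.  `D = diag(1, -1)`.  `D · mapGL g = mapGL (J g) · D` (`J = jConjSL`), and
`D · heckeRep x = mapGL (t_x) · heckeRep (-x) · D` with `t_x = [[1, -ε_x], [0, 1]] ∈ Γ₀(N)`.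
Conjugating `heckeRep x · γ = γ_x · heckeRep (π_γ x)` by `D` and using uniqueness (`hElt_unique`):
`hElt (J γ) (-x) = t_x⁻¹ · J (γ_x) · t_{π_γ x}`.  Summing over `x`, the `t`-terms cancel because
`π_γ` is a permutation.
-/

set_option autoImplicit false

namespace Fermat.Agent.S41.H576

open CongruenceSubgroup Matrix.SpecialLinearGroup ModularCurve ModularCurve.Period
open P2MW.S_ModularForm_heckeT_slash_eq_self_of_mem_Gamma0.ModularForm.HeckeSlashInvariance
open P2MW.S_ModularForm_heckeT_slash_eq_self_of_mem_Gamma0.ModularForm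
open Fermat.Agent.S29.H642
open scoped MatrixGroups

variable {p : ℕ} [Fact p.Prime] {N : ℕ}

/-- `D = diag(1, -1) ∈ GL₂(ℝ)`. -/
noncomputable def dMat : GL (Fin 2) ℝ :=
  Matrix.GeneralLinearGroup.mkOfDetNeZero !![1, 0; 0, -1] (by simp [Matrix.det_fin_two_of])

theorem val_dMat : ((dMat : GL (Fin 2) ℝ) : Matrix (Fin 2) (Fin 2) ℝ) = !![1, 0; 0, -1] := rfl

/-- `D = diag(1, -1) ∈ GL₂(𝔽_p)`. -/
noncomputable def dModP (p : ℕ) [Fact p.Prime] : GL (Fin 2) (ZMod p) :=
  Matrix.GeneralLinearGroup.mkOfDetNeZero !![1, 0; 0, -1] (by simp [Matrix.det_fin_two_of])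

theorem val_dModP :
    ((dModP p : GL (Fin 2) (ZMod p)) : Matrix (Fin 2) (Fin 2) (ZMod p)) = !![1, 0; 0, -1] := rfl

/-- Conjugation by `D` on `SL₂(ℤ)` is `jConjSL`. -/
theorem dMat_mul_mapGL (g : SL(2, ℤ)) :
    dMat * mapGL ℝ g = mapGL ℝ (jConjSL g) * dMat := by
  ext i j
  fin_cases i <;> fin_cases j <;>
    simp [val_dMat, Matrix.mul_apply, Fin.sum_univ_two, jConjMat]

/-- The unipotent matrix `[[1, e], [0, 1]]`. -/
def uMat (e : ℤ) : SL(2, ℤ) := ⟨!![1, e; 0, 1], by simp [Matrix.det_fin_two_of]⟩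

theorem uMat_mem (N : ℕ) (e : ℤ) : uMat e ∈ Gamma0 N := by
  rw [Gamma0_mem]
  simp [uMat]

/-- `ε_x ∈ {0, 1}`: `ε_∞ = ε_0 = 0`, `ε_j = 1` otherwise. -/
noncomputable def eps (x : OnePoint (ZMod p)) : ℤ :=
  x.elim 0 (fun j => if j = 0 then 0 else 1)

/-- `t_x = [[1, -ε_x], [0, 1]] ∈ Γ₀(N)`. -/
noncomputable def tElt (N : ℕ) (x : OnePoint (ZMod p)) : Gamma0 N :=
  ⟨uMat (-eps x), uMat_mem N _⟩

theorem dModP_smul_infty : dModP p • (OnePoint.infty : OnePoint (ZMod p)) = OnePoint.infty := by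
  rw [OnePoint.smul_infty_eq_ite]
  simp [val_dModP]

theorem dModP_smul_coe (j : ZMod p) :
    dModP p • ((j : ZMod p) : OnePoint (ZMod p)) = ((-j : ZMod p) : OnePoint (ZMod p)) := by
  rw [OnePoint.smul_some_eq_ite]
  simp [val_dModP, div_neg]

theorem val_add_neg_val (j : ZMod p) :
    ((j.val : ℤ) + ((-j).val : ℤ)) = (p : ℤ) * (if j = 0 then 0 else 1) := by
  rw [ZMod.neg_val]
  by_cases hj : j = 0
  · simp [hj]
  · simp only [hj, if_false, mul_one]
    have h := ZMod.val_lt j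
    push_cast [Nat.cast_sub h.le]
    ring

/-- Conjugation of the Hecke representatives by `D`. -/
theorem dMat_mul_heckeRep (N : ℕ) (x : OnePoint (ZMod p)) :
    dMat * heckeRep p x =
      mapGL ℝ ((tElt N x : Gamma0 N) : SL(2, ℤ)) * heckeRep p (dModP p • x) * dMat := by
  have hp : p ≠ 0 := (Fact.out : p.Prime).ne_zero
  induction x using OnePoint.rec with
  | infty =>
    rw [dModP_smul_infty, heckeRep_infty]
    ext i j
    fin_cases i <;> fin_cases j <;>
      simp [val_dMat, Matrix.mul_apply, Fin.sum_univ_two, tElt, uMat, eps, hp]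
  | coe j =>
    rw [dModP_smul_coe, heckeRep_coe, heckeRep_coe]
    have h := congrArg (Int.cast : ℤ → ℝ) (val_add_neg_val j)
    push_cast at h
    ext i k
    fin_cases i <;> fin_cases k <;>
      simp [val_dMat, Matrix.mul_apply, Fin.sum_univ_two, tElt, uMat, eps, hp]
    by_cases hj : j = 0
    · simp [hj] at h ⊢
    · simp [hj] at h ⊢
      linarith

/-- `redMatrix` intertwines `jConjSL` with conjugation by `D` mod `p`. -/
theorem redMatrix_jConjSL_mul (g : SL(2, ℤ)) :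
    redMatrix p (jConjSL g) * dModP p = dModP p * redMatrix p g := by
  ext i j
  fin_cases i <;> fin_cases j <;>
    simp [val_dModP, Matrix.mul_apply, Fin.sum_univ_two, jConjMat]

theorem hPerm_jConjSL (g : SL(2, ℤ)) (x : OnePoint (ZMod p)) :
    hPerm p (jConjSL g) (dModP p • x) = dModP p • hPerm p g x := by
  rw [hPerm_apply, hPerm_apply, ← mul_smul, ← mul_smul, redMatrix_jConjSL_mul]

/-- The key identity. -/
theorem hElt_jConj (hpN : ¬ p ∣ N) (γ : Gamma0 N) (x : OnePoint (ZMod p)) :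
    hElt hpN (jConjGamma0 N γ) (dModP p • x) =
      (tElt N x)⁻¹ * jConjGamma0 N (hElt hpN γ x) * tElt N (hPerm p (γ : SL(2, ℤ)) x) := by
  symm
  apply hElt_unique
  have h1 := dMat_mul_heckeRep N x
  have h2 := dMat_mul_heckeRep N (hPerm p (γ : SL(2, ℤ)) x)
  have h3 := hElt_spec hpN γ x
  have h4 := dMat_mul_mapGL (γ : SL(2, ℤ))
  have h5 := dMat_mul_mapGL ((hElt hpN γ x : Gamma0 N) : SL(2, ℤ))
  rw [jConjGamma0_coe, hPerm_jConjSL]
  simp only [Subgroup.coe_mul, Subgroup.coe_inv, map_mul, map_inv, jConjGamma0_coe]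
  set a := mapGL ℝ ((tElt N x : Gamma0 N) : SL(2, ℤ)) with ha
  set b := mapGL ℝ ((tElt N (hPerm p (γ : SL(2, ℤ)) x) : Gamma0 N) : SL(2, ℤ)) with hb
  set H := heckeRep p x with hH
  set H' := heckeRep p (hPerm p (γ : SL(2, ℤ)) x) with hH'
  set G := mapGL ℝ (γ : SL(2, ℤ)) with hG
  set G' := mapGL ℝ ((hElt hpN γ x : Gamma0 N) : SL(2, ℤ)) with hG'
  set K := heckeRep p (dModP p • x) with hK
  set K' := heckeRep p (dModP p • hPerm p (γ : SL(2, ℤ)) x) with hK'
  set JG := mapGL ℝ (jConjSL (γ : SL(2, ℤ))) with hJG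
  set JG' := mapGL ℝ (jConjSL ((hElt hpN γ x : Gamma0 N) : SL(2, ℤ))) with hJG'
  have e1 : K = a⁻¹ * dMat * H * dMat⁻¹ := by
    have h : a⁻¹ * (dMat * H) * dMat⁻¹ = K := by rw [h1]; group
    rw [← h]; group
  have e2 : K' = b⁻¹ * dMat * H' * dMat⁻¹ := by
    have h : b⁻¹ * (dMat * H') * dMat⁻¹ = K' := by rw [h2]; group
    rw [← h]; group
  have e4 : JG = dMat * G * dMat⁻¹ := by
    rw [h4]; group
  have e5 : JG' = dMat * G' * dMat⁻¹ := by
    rw [h5]; group
  rw [e1, e2, e4, e5]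
  calc a⁻¹ * dMat * H * dMat⁻¹ * (dMat * G * dMat⁻¹)
      = a⁻¹ * dMat * (H * G) * dMat⁻¹ := by group
    _ = a⁻¹ * dMat * (G' * H') * dMat⁻¹ := by rw [h3]
    _ = a⁻¹ * (dMat * G' * dMat⁻¹) * b * (b⁻¹ * dMat * H' * dMat⁻¹) := by group

/-- **NEW-3b**, for every coefficient group. -/
theorem heckeTransfer_charInvolution {R : Type*} [Semiring R] {A : Type*} [AddCommGroup A]
    [Module R A] (hpN : ¬ p ∣ N) (φ : Additive (Gamma0 N) →+ A) :
    heckeTransfer hpN (charInvolution N R A φ) = charInvolution N R A (heckeTransfer hpN φ) := by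
  refine AddMonoidHom.ext fun γ' => ?_
  obtain ⟨γ, rfl⟩ : ∃ γ : Gamma0 N, Additive.ofMul γ = γ' := ⟨Additive.toMul γ', rfl⟩
  rw [heckeTransfer_apply, charInvolution_apply, toMul_ofMul, heckeTransfer_apply]
  simp only [charInvolution_apply, toMul_ofMul]
  rw [← Equiv.sum_comp (MulAction.toPerm (dModP p))
    (fun y => φ (Additive.ofMul (hElt hpN (jConjGamma0 N γ) y)))]
  simp only [MulAction.toPerm_apply, hElt_jConj, ofMul_mul, ofMul_inv, map_add, map_neg,
    Finset.sum_add_distrib, Finset.sum_neg_distrib]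
  have hperm : ∑ x : OnePoint (ZMod p),
      φ (Additive.ofMul (tElt N (hPerm p (γ : SL(2, ℤ)) x))) =
      ∑ x : OnePoint (ZMod p), φ (Additive.ofMul (tElt N x)) :=
    Equiv.sum_comp (hPerm p (γ : SL(2, ℤ))) (fun y => φ (Additive.ofMul (tElt N y)))
  rw [hperm]
  abel

/-- **NEW-3b** (exact frozen statement of `Spec/New.lean`). -/
theorem newInvolutionHecke : Spec.NewInvolutionHeckeStatement := by
  intro M l _ hl φ
  exact heckeTransfer_charInvolution hl φ

end Fermat.Agent.S41.H576
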